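import Mathlib
import Fermat.Prelude.Def_ModularCurve_ArithmeticGalois
import Fermat.Prelude.Def_ModularCurve_GenusNumerics
import Fermat.Prelude.Def_AlgebraicCurve_CanonicalDivisor

set_option autoImplicit false

/-!
# X-MOD internal skeleton (helper12): exact interfaces between the X-MOD pieces.
WIP file (contains sorry); never import from a non-WIP file.
-/

namespace Fermat.Agent.X0

open UpperHalfPlane ModularCurve
open scoped MatrixGroups Manifold ModularForm

/-! ## (Q) the q-dictionary -/

/-- `s` is the (Laurent) `q`-expansion of `f`: `f z = ∑_{n ∈ ℤ} s_n q^n`, `q = exp(2πiz)`. -/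
def IsQExp (s : LaurentSeries ℂ) (f : ℍ → ℂ) : Prop :=
  ∀ z : ℍ, HasSum (fun n : ℤ => s.coeff n * Function.Periodic.qParam 1 (z : ℂ) ^ n) (f z)

namespace IsQExp

variable {s t : LaurentSeries ℂ} {f g : ℍ → ℂ}

theorem add (hs : IsQExp s f) (ht : IsQExp t g) : IsQExp (s + t) (f + g) := sorry
theorem mul (hs : IsQExp s f) (ht : IsQExp t g) : IsQExp (s * t) (f * g) := sorry
theorem neg (hs : IsQExp s f) : IsQExp (-s) (-f) := sorry
theorem const (c : ℂ) : IsQExp (HahnSeries.C c) (fun _ => c) := sorry
theorem single (k : ℤ) (c : ℂ) :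
    IsQExp (HahnSeries.single k c) (fun z => c * Function.Periodic.qParam 1 (z : ℂ) ^ k) := sorry
/-- the function determines the series -/
theorem series_unique (hs : IsQExp s f) (ht : IsQExp t f) : s = t := sorry
/-- the series determines the function -/
theorem fun_unique (hs : IsQExp s f) (ht : IsQExp s g) : f = g :=
  funext fun z => (hs z).unique (ht z)
/-- existence for holomorphic periodic functions bounded at `i∞` -/
theorem of_bounded (hf : MDiff f) (hper : ∀ z : ℍ, f ((1 : ℝ) +ᵥ z) = f z)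
    (hb : IsBoundedAtImInfty f) :
    IsQExp (HahnSeries.ofPowerSeries ℤ ℂ (qExpansion 1 f)) f := sorry
/-- `f(d z)` has `q`-expansion `s(q^d)` -/
theorem scale (hs : IsQExp s f) (d : ℕ) [NeZero d] :
    IsQExp (qExpand ℂ d s)
      (fun z => f ⟨(d : ℂ) * z, by
        have := z.im_pos
        have hd : (0 : ℝ) < d := by exact_mod_cast Nat.pos_of_ne_zero (NeZero.ne d)
        simpa using mul_pos hd this⟩) := sorry
/-- a function with a `q`-expansion is holomorphic -/
theorem mdiff (hs : IsQExp s f) : MDiff f := sorry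

end IsQExp


/-! ## (Q-J) the key fact : the Prelude's formal `jq` is the `q`-expansion of `E₄³/Δ` -/

/-- the analytic `j`-function (OWNER of the real definition: helper22, `Fermat/Agent/X0/JFun.lean`) -/
noncomputable def jFun' (z : ℍ) : ℂ := ModularForm.E₄ z ^ 3 / ModularForm.discriminant z

theorem isQExp_jq : IsQExp (coeffMap (algebraMap ℚ ℂ) jq) jFun' := sorry

/-! ## (GAL) pure field theory -/

theorem coeff_minpoly_mem_of_embeddings {E F M : Type*} [Field E] [Field F] [Field M]
    [Algebra E F] [Algebra E M] [FiniteDimensional E F] [CharZero E]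
    {X : Type*} [Fintype X] (hX : Fintype.card X = Module.finrank E F)
    (θ : X → F →ₐ[E] M) (hθ : Function.Injective θ)
    (O : Subring M) (f : F) (hf : ∀ c, θ c f ∈ O) (i : ℕ) :
    algebraMap E M ((minpoly E f).coeff i) ∈ O := sorry

/-! ## (ACL) abstract counting lemma -/

section ACL

open AlgebraicCurve IntermediateField

/-- `x` is a separating variable of the function field `F/K` with `[F : K(x)] = n`. (copy of
Skeleton.lean) -/
structure IsSepVar' (K : Type*) {F : Type*} [Field K] [Field F] [Algebra K F] (x : F) (n : ℕ) :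
    Prop where
  transcendental : Transcendental K x
  finite : FiniteDimensional K⟮x⟯ F
  finrank_eq : Module.finrank K⟮x⟯ F = n

def placesOver' {K F : Type*} [Field K] [Field F] [Algebra K F] (x : F) (a : K) :
    Set (Place K F) := {v | 0 < v.ord (x - algebraMap K F a)}

theorem card_placesOver_eq_card_orbits
    {K F : Type*} [Field K] [Field F] [Algebra K F] [IsAlgClosed K] [CharZero K]
    {x : F} {n : ℕ} (hx : IsSepVar' K x n) (a : K)
    {G X : Type*} [Group G] [MulAction G X] [Finite X] (hX : Nat.card X = n) (g : G)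
    (e0 : ℕ) (he0 : 0 < e0) (w : X → F → ℤ)
    (w_mul : ∀ c f h, f ≠ 0 → h ≠ 0 → w c (f * h) = w c f + w c h)
    (w_add : ∀ c f h, f ≠ 0 → h ≠ 0 → f + h ≠ 0 → min (w c f) (w c h) ≤ w c (f + h))
    (w_alg : ∀ c (k : K), k ≠ 0 → w c (algebraMap K F k) = 0)
    (w_x : ∀ c, w c (x - algebraMap K F a) = e0)
    (w_int : ∀ f : F, f ≠ 0 → (∀ c, 0 ≤ w c f) → ∀ i : ℕ,
      (minpoly K⟮x⟯ f).coeff i = 0 ∨ ∀ c, 0 ≤ w c (((minpoly K⟮x⟯ f).coeff i : K⟮x⟯) : F))
    (w_g : ∀ c f, w (g • c) f = w c f)
    (w_dvd : ∀ c f, f ≠ 0 →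
      (e0 : ℤ) ∣ (Nat.card (MulAction.orbit (Subgroup.zpowers g) c) : ℤ) * w c f) :
    Nat.card (placesOver' x a) = Nat.card (MulAction.orbitRel.Quotient (Subgroup.zpowers g) X)
      ∧ ∀ v ∈ placesOver' x a, v.ord (x - algebraMap K F a) ∣ (e0 : ℤ) := sorry

end ACL

end Fermat.Agent.X0
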