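import Mathlib
import Fermat.Prelude.Def_ModularCurve_ArithmeticGalois
import Fermat.Prelude.Def_ModularCurve_GenusNumerics
import Fermat.Prelude.Def_AlgebraicCurve_CanonicalDivisor
import Fermat.Agent.X0.Defs

set_option autoImplicit false

/-!
# PROGRAM X (S24 → S20, S21): top-level skeleton with the exact interfaces

This WIP file fixes the interfaces between the sub-teams
* X-ALG  (general function fields `F/K`, `K` algebraically closed of characteristic `0`),
* X-MOD  (analytic side: places of `Fb N` over `j = 0, 1728, ∞` ↔ orbits on cosets),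
* X-COUNT (finite combinatorics on `SL(2,ℤ) ⧸ Γ₀(N)`),
and proves S24 from them (`genus_eq_genusFormula`), so the interfaces are known to suffice.

Every `sorry` below is an interface lemma owned by a sub-team; final versions live in
`Fermat/Agent/X0/<Piece>.lean` with the SAME names and statements (namespace `Fermat.Agent.X0`).
-/

namespace Fermat.Agent.X0

open AlgebraicCurve ModularCurve KaehlerDifferential IntermediateField
open scoped MatrixGroups

/-! ## X-ALG : general function fields -/

section ALG

variable {K F : Type*} [Field K] [Field F] [Algebra K F]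

variable [IsAlgClosed K] [CharZero K]

/-- (ALG-Ω) `dx ≠ 0` for a separating variable. -/
theorem D_ne_zero_of_isSepVar {x : F} {n : ℕ} (hx : IsSepVar K x n) : D K F x ≠ 0 := sorry

/-- (ALG-FIN) finitely many places over a value, and over `∞`. -/
theorem finite_placesOver {x : F} {n : ℕ} (hx : IsSepVar K x n) (a : K) :
    (placesOver x a).Finite := sorry

theorem finite_placesOverInfty {x : F} {n : ℕ} (hx : IsSepVar K x n) :
    (placesOverInfty K x).Finite := sorry

/-- (ALG-FUND) fundamental identity `∑ e = n` over a finite value … -/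
theorem sum_ord_placesOver {x : F} {n : ℕ} (hx : IsSepVar K x n) (a : K) :
    ∑ v ∈ (finite_placesOver hx a).toFinset, v.ord (x - algebraMap K F a) = n := sorry

/-- … and over `∞`. -/
theorem sum_ord_placesOverInfty {x : F} {n : ℕ} (hx : IsSepVar K x n) :
    ∑ v ∈ (finite_placesOverInfty hx).toFinset, -v.ord x = n := sorry

/-- (ALG-RH) Riemann–Hurwitz count: for every nonzero differential `ω` with divisor `Dω`,
`deg Dω = -2n + ∑_{a ∈ A} (n - #{v | x(v) = a}) + (n - #{poles of x})`, where `A` contains every
finite branch value of `x`. -/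
theorem degree_divisor_differential {x : F} {n : ℕ} (hx : IsSepVar K x n)
    (A : Finset K) (hA : ∀ (v : Place K F) (a : K), 2 ≤ v.ord (x - algebraMap K F a) → a ∈ A)
    (ω : Ω[F⁄K]) (hω : ω ≠ 0) (Dω : Divisor K F) (hD : ∀ v, Dω v = v.ordDifferential ω) :
    Divisor.degree Dω =
      -2 * (n : ℤ) + ∑ a ∈ A, ((n : ℤ) - (Nat.card (placesOver x a) : ℤ))
        + ((n : ℤ) - (Nat.card (placesOverInfty K x) : ℤ)) := sorry

end ALG

/-! ## X-COUNT : finite combinatorics on `SL(2,ℤ) ⧸ Γ₀(N)` -/

section COUNT

variable (N : ℕ) [NeZero N]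

theorem card_cosets : Nat.card (SL(2, ℤ) ⧸ CongruenceSubgroup.Gamma0 N) = dedekindPsi N := sorry

theorem two_mul_orbitCount_S :
    2 * orbitCount N ModularGroup.S = dedekindPsi N + nuTwo N := sorry

theorem three_mul_orbitCount_ST :
    3 * orbitCount N (ModularGroup.S * ModularGroup.T) = dedekindPsi N + 2 * nuThree N := sorry

theorem orbitCount_T : orbitCount N ModularGroup.T = cuspCount N := sorry

/-- integrality and non-negativity of the genus formula (sign of permutations + Ree's
inequality for the transitive triple `S, ST, T` acting on the cosets). -/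
theorem exists_nat_eq_genusFormula : ∃ g : ℕ, (g : ℚ) = genusFormula N := sorry

end COUNT

/-! ## X-MOD : places of `Fb N` over `j = a` -/

section MOD

variable (N : ℕ) [NeZero N]

theorem jBar_isSepVar : IsSepVar Kb (jBar N) (dedekindPsi N) := sorry

/-- `j` is unramified outside `0, 1728, ∞`. -/
theorem ord_jBar_sub_le_one (v : Place Kb (Fb N)) (a : Kb) (h0 : a ≠ 0) (h1 : a ≠ 1728) :
    v.ord (jBar N - algebraMap Kb (Fb N) a) ≤ 1 := sorry

theorem card_placesOver_1728 :
    Nat.card (placesOver (jBar N) (1728 : Kb)) = orbitCount N ModularGroup.S := sorry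

theorem card_placesOver_zero :
    Nat.card (placesOver (jBar N) (0 : Kb)) =
      orbitCount N (ModularGroup.S * ModularGroup.T) := sorry

theorem card_placesOverInfty :
    Nat.card (placesOverInfty Kb (jBar N)) = orbitCount N ModularGroup.T := sorry

end MOD

/-! ## Assembly : S24 -/

section Assembly

variable (N : ℕ) [NeZero N]

/-- the degree of the divisor of ANY nonzero differential of `Fb N`. -/
theorem degree_divisor_differential_Fb (ω : Ω[Fb N⁄Kb]) (hω : ω ≠ 0)
    (Dω : Divisor Kb (Fb N)) (hD : ∀ v, Dω v = v.ordDifferential ω) :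
    ((Divisor.degree Dω : ℤ) : ℚ) = 2 * genusFormula N - 2 := by
  classical
  have hx := jBar_isSepVar N
  have hA : ∀ (v : Place Kb (Fb N)) (a : Kb),
      2 ≤ v.ord (jBar N - algebraMap Kb (Fb N) a) → a ∈ ({0, 1728} : Finset Kb) := by
    intro v a h
    by_contra hne
    simp only [Finset.mem_insert, Finset.mem_singleton, not_or] at hne
    have := ord_jBar_sub_le_one N v a hne.1 hne.2
    omega
  have h := degree_divisor_differential hx {0, 1728} hA ω hω Dω hD
  have hne : (0 : Kb) ≠ 1728 := by norm_num
  rw [Finset.sum_pair hne, card_placesOver_zero, card_placesOver_1728, card_placesOverInfty] at h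
  have h2 := two_mul_orbitCount_S N
  have h3 := three_mul_orbitCount_ST N
  have hT := orbitCount_T N
  rw [h, genusFormula]
  have h2' : (orbitCount N ModularGroup.S : ℚ) = ((dedekindPsi N : ℚ) + nuTwo N) / 2 := by
    have : (2 : ℚ) * orbitCount N ModularGroup.S = (dedekindPsi N : ℚ) + nuTwo N := by
      exact_mod_cast h2
    linarith
  have h3' : (orbitCount N (ModularGroup.S * ModularGroup.T) : ℚ)
      = ((dedekindPsi N : ℚ) + 2 * nuThree N) / 3 := by
    have : (3 : ℚ) * orbitCount N (ModularGroup.S * ModularGroup.T)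
        = (dedekindPsi N : ℚ) + 2 * nuThree N := by
      exact_mod_cast h3
    linarith
  push_cast
  rw [h2', h3', hT]
  ring

/-- **S24** from the interfaces. -/
theorem genus_eq_genusFormula
    [AlgebraicCurve.HasCanonicalDivisor (K := Kb) (F := Fb N)] :
    (AlgebraicCurve.genus Kb (Fb N) : ℚ) = genusFormula N := by
  classical
  have hex : ∃ ω : Ω[Fb N⁄Kb], ω ≠ 0 := ⟨D Kb (Fb N) (jBar N), D_ne_zero_of_isSepVar (jBar_isSepVar N)⟩
  obtain ⟨g, hg⟩ := exists_nat_eq_genusFormula N
  unfold AlgebraicCurve.genus
  rw [dif_pos hex]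
  have hdeg := degree_divisor_differential_Fb N _ hex.choose_spec
    (canonicalDivisorOf hex.choose_spec) (fun v => canonicalDivisorOf_apply _ v)
  rw [← hg] at hdeg ⊢
  have hdegZ : Divisor.degree (canonicalDivisorOf hex.choose_spec) = 2 * (g : ℤ) - 2 := by
    have : ((Divisor.degree (canonicalDivisorOf hex.choose_spec) : ℤ) : ℚ)
        = ((2 * (g : ℤ) - 2 : ℤ) : ℚ) := by
      rw [hdeg]; push_cast; ring
    exact_mod_cast this
  rw [hdegZ]
  have : (2 * (g : ℤ) - 2 + 2).toNat / 2 = g := by
    have h1 : (2 * (g : ℤ) - 2 + 2) = ((2 * g : ℕ) : ℤ) := by push_cast; ring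
    rw [h1, Int.toNat_natCast]
    omega
  rw [this]

end Assembly

end Fermat.Agent.X0
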